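import Mathlib

set_option autoImplicit false

/-!
Polynomial identities for the x-coordinate duplication map on a short Weierstrass
cubic `X^3 + A X + B`.  Everything is stated for field elements.
-/

namespace Fermat.Agent.S51.FiveX

variable {K : Type*} [Field K]

def GS (A B X : K) : K := 4 * (X ^ 3 + A * X + B)

def FS (A B X : K) : K := X ^ 4 - 2 * A * X ^ 2 - 8 * B * X + A ^ 2

def psi3 (A B X : K) : K := 3 * X ^ 4 + 6 * A * X ^ 2 + 12 * B * X - A ^ 2

def psi4p (A B X : K) : K :=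
  2 * (X ^ 6 + 5 * A * X ^ 4 + 20 * B * X ^ 3 - 5 * A ^ 2 * X ^ 2 - 4 * A * B * X
    - 8 * B ^ 2 - A ^ 3)

def H12 (A B X : K) : K :=
  4 * ((FS A B X) ^ 3 + A * (FS A B X) * (GS A B X) ^ 2 + B * (GS A B X) ^ 3)

def psi5 (A B X : K) : K := psi4p A B X * (GS A B X) ^ 2 - (psi3 A B X) ^ 3

def N16 (A B X : K) : K :=
  (FS A B X) ^ 4 - 2 * A * (FS A B X) ^ 2 * (GS A B X) ^ 2
    - 8 * B * (FS A B X) * (GS A B X) ^ 3 + A ^ 2 * (GS A B X) ^ 4
    - X * GS A B X * H12 A B X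

/-- the duplication map on shifted x-coordinates -/
noncomputable def DS (A B X : K) : K := FS A B X / GS A B X

theorem FS_sub (A B X : K) : FS A B X - X * GS A B X = - psi3 A B X := by
  unfold FS GS psi3; ring

theorem H12_eq (A B X : K) : H12 A B X = (psi4p A B X) ^ 2 := by
  unfold H12 FS GS psi4p; ring

theorem N16_eq (A B X : K) : N16 A B X = - (psi3 A B X * psi5 A B X) := by
  unfold N16 psi5 H12 FS GS psi3 psi4p; ring

theorem psi5_expand (A B X : K) : psi5 A B X =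
    5 * X ^ 12 + 62 * A * X ^ 10 + 380 * B * X ^ 9 - 105 * A ^ 2 * X ^ 8 + 240 * A * B * X ^ 7
      - 300 * A ^ 3 * X ^ 6 - 240 * B ^ 2 * X ^ 6 - 696 * A ^ 2 * B * X ^ 5 - 125 * A ^ 4 * X ^ 4
      - 1920 * A * B ^ 2 * X ^ 4 - 80 * A ^ 3 * B * X ^ 3 - 1600 * B ^ 3 * X ^ 3
      - 50 * A ^ 5 * X ^ 2 - 240 * A ^ 2 * B ^ 2 * X ^ 2 - 100 * A ^ 4 * B * X
      - 640 * A * B ^ 3 * X + A ^ 6 - 32 * A ^ 3 * B ^ 2 - 256 * B ^ 4 := by
  unfold psi5 psi4p GS psi3; ring

theorem DS_sub (A B X : K) (hG : GS A B X ≠ 0) : DS A B X - X = - psi3 A B X / GS A B X := by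
  unfold DS
  rw [← FS_sub]
  field_simp

theorem GS_DS (A B X : K) (hG : GS A B X ≠ 0) :
    GS A B (DS A B X) * (GS A B X) ^ 3 = H12 A B X := by
  unfold DS H12
  set F := FS A B X with hF
  set G := GS A B X with hG'
  have : GS A B (F / G) = 4 * ((F / G) ^ 3 + A * (F / G) + B) := rfl
  rw [this]
  field_simp

theorem FS_DS (A B X : K) (hG : GS A B X ≠ 0) :
    FS A B (DS A B X) * (GS A B X) ^ 4 =
      (FS A B X) ^ 4 - 2 * A * (FS A B X) ^ 2 * (GS A B X) ^ 2
        - 8 * B * (FS A B X) * (GS A B X) ^ 3 + A ^ 2 * (GS A B X) ^ 4 := by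
  unfold DS
  set F := FS A B X with hF
  set G := GS A B X with hG'
  have : FS A B (F / G) = (F / G) ^ 4 - 2 * A * (F / G) ^ 2 - 8 * B * (F / G) + A ^ 2 := rfl
  rw [this]
  field_simp

theorem GS_DS_ne_zero_iff (A B X : K) (hG : GS A B X ≠ 0) :
    GS A B (DS A B X) ≠ 0 ↔ H12 A B X ≠ 0 := by
  rw [← GS_DS A B X hG]
  constructor
  · intro h; exact mul_ne_zero h (pow_ne_zero _ hG)
  · intro h h0; exact h (by rw [h0, zero_mul])

/-- `D (D X) = X` is equivalent to the vanishing of `N16`. -/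
theorem DS_DS_eq_iff (A B X : K) (hG : GS A B X ≠ 0) (hH : H12 A B X ≠ 0) :
    DS A B (DS A B X) = X ↔ N16 A B X = 0 := by
  have hG2 : GS A B (DS A B X) ≠ 0 := (GS_DS_ne_zero_iff A B X hG).2 hH
  have h1 := FS_DS A B X hG
  have h2 := GS_DS A B X hG
  have key : DS A B (DS A B X) = X ↔ FS A B (DS A B X) = X * GS A B (DS A B X) := by
    unfold DS at hG2 ⊢
    rw [div_eq_iff hG2]
  rw [key]
  have hG4 : (GS A B X) ^ 4 ≠ 0 := pow_ne_zero _ hG
  constructor
  · intro h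
    unfold N16
    rw [← h1, ← h2, h]
    ring
  · intro h
    have : (FS A B (DS A B X) - X * GS A B (DS A B X)) * (GS A B X) ^ 4 = 0 := by
      have e : (FS A B (DS A B X) - X * GS A B (DS A B X)) * (GS A B X) ^ 4 =
          FS A B (DS A B X) * (GS A B X) ^ 4
            - X * GS A B X * (GS A B (DS A B X) * (GS A B X) ^ 3) := by ring
      rw [e, h1, h2]
      unfold N16 at h
      linear_combination h
    rcases mul_eq_zero.1 this with h3 | h3
    · exact sub_eq_zero.1 h3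
    · exact absurd h3 hG4

/-- A common zero of the cubic and its derivative forces the discriminant to vanish. -/
theorem disc_eq_zero_of_double_root (A B X : K) (h0 : X ^ 3 + A * X + B = 0)
    (h1 : 3 * X ^ 2 + A = 0) : 4 * A ^ 3 + 27 * B ^ 2 = 0 := by
  linear_combination (6 * A * X ^ 2 - 9 * B * X + 4 * A ^ 2) * h1 - (18 * A * X - 27 * B) * h0

theorem psi3_of_GS_eq_zero (A B X : K) (h0 : GS A B X = 0) :
    16 * psi3 A B X = - (12 * X ^ 2 + 4 * A) ^ 2 := by
  unfold GS at h0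
  unfold psi3
  linear_combination (48 * X) * h0

end Fermat.Agent.S51.FiveX
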