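import Mathlib
import Fermat.Agent.S51.Five.Poly

set_option autoImplicit false
set_option linter.unusedSectionVars false

/-!
x-coordinate duplication on Mathlib's affine points, in the shifted coordinate
`X = x + b₂/12`, `A = -c₄/48`, `B = -c₆/864`.
-/

namespace Fermat.Agent.S51.FiveX

open WeierstrassCurve

variable {K : Type*} [Field K] [DecidableEq K] [CharZero K] (W : WeierstrassCurve.Affine K)

noncomputable def cA : K := - W.c₄ / 48

noncomputable def cB : K := - W.c₆ / 864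

/-- shifted x-coordinate (junk value `0` at the point at infinity) -/
noncomputable def Xc : W.Point → K
  | .zero => 0
  | .some x _ _ => x + W.b₂ / 12

@[simp] theorem Xc_some {x y : K} (h : W.Nonsingular x y) :
    Xc W (.some x y h) = x + W.b₂ / 12 := rfl

theorem Δ_eq : W.Δ = -16 * (4 * (cA W) ^ 3 + 27 * (cB W) ^ 2) := by
  unfold cA cB
  simp only [WeierstrassCurve.Δ, WeierstrassCurve.c₄, WeierstrassCurve.c₆,
    WeierstrassCurve.b₂, WeierstrassCurve.b₄, WeierstrassCurve.b₆, WeierstrassCurve.b₈]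
  ring

theorem GS_Xc {x y : K} (h : W.Equation x y) :
    GS (cA W) (cB W) (x + W.b₂ / 12) = (y - W.negY x y) ^ 2 := by
  have he := (W.equation_iff x y).mp h
  unfold GS cA cB
  simp only [WeierstrassCurve.c₄, WeierstrassCurve.c₆,
    WeierstrassCurve.b₂, WeierstrassCurve.b₄, WeierstrassCurve.b₆, Affine.negY]
  linear_combination (-4 : K) * he

theorem FS_Xc {x y : K} (h : W.Equation x y) :
    FS (cA W) (cB W) (x + W.b₂ / 12) =
      (3 * x ^ 2 + 2 * W.a₂ * x + W.a₄ - W.a₁ * y) ^ 2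
        + W.a₁ * (3 * x ^ 2 + 2 * W.a₂ * x + W.a₄ - W.a₁ * y) * (y - W.negY x y)
        - (W.a₂ + 2 * x) * (y - W.negY x y) ^ 2
        + W.b₂ / 12 * (y - W.negY x y) ^ 2 := by
  have he := (W.equation_iff x y).mp h
  unfold FS cA cB
  simp only [WeierstrassCurve.c₄, WeierstrassCurve.c₆,
    WeierstrassCurve.b₂, WeierstrassCurve.b₄, WeierstrassCurve.b₆, Affine.negY]
  linear_combination (8 * x + W.a₁ ^ 2 + 4 * W.a₂ - (W.a₁ ^ 2 + 4 * W.a₂) / 3) * he

open WeierstrassCurve.Affine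

theorem some_add_self_eq_zero_iff {x y : K} (h : W.Nonsingular x y) :
    (Point.some x y h + Point.some x y h = 0) ↔ y = W.negY x y := by
  constructor
  · intro h0
    by_contra hy
    rw [Point.add_self_of_Y_ne hy] at h0
    exact Point.some_ne_zero _ h0
  · intro hy
    exact Point.add_self_of_Y_eq hy

theorem Xc_some_add_self {x y : K} (h : W.Nonsingular x y) (hy : y ≠ W.negY x y) :
    Xc W (Point.some x y h + Point.some x y h) = DS (cA W) (cB W) (x + W.b₂ / 12) := by
  rw [Point.add_self_of_Y_ne hy, Xc_some]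
  have hw : y - W.negY x y ≠ 0 := sub_ne_zero.2 hy
  have hG := GS_Xc W h.1
  have hF := FS_Xc W h.1
  unfold DS
  rw [hG, hF, Affine.slope_of_Y_ne rfl hy]
  simp only [Affine.addX]
  field_simp
  ring

theorem Xc_neg (P : W.Point) : Xc W (-P) = Xc W P := by
  rcases P with _ | ⟨x, y, h⟩
  · rfl
  · rfl

theorem eq_or_eq_neg_of_Xc_eq {P Q : W.Point} (hP : P ≠ 0) (hQ : Q ≠ 0)
    (h : Xc W P = Xc W Q) : P = Q ∨ P = -Q := by
  rcases P with _ | ⟨x₁, y₁, h₁⟩
  · exact absurd rfl hP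
  rcases Q with _ | ⟨x₂, y₂, h₂⟩
  · exact absurd rfl hQ
  simp only [Xc_some] at h
  have hx : x₁ = x₂ := by linear_combination h
  exact Point.X_eq_iff.mp hx

theorem GS_Xc_eq_zero_iff {P : W.Point} (hP : P ≠ 0) :
    GS (cA W) (cB W) (Xc W P) = 0 ↔ P + P = 0 := by
  rcases P with _ | ⟨x, y, h⟩
  · exact absurd rfl hP
  rw [some_add_self_eq_zero_iff, Xc_some, GS_Xc W h.1, sq_eq_zero_iff, sub_eq_zero]

theorem Xc_add_self {P : W.Point} (hP : P ≠ 0) (h2 : P + P ≠ 0) :
    Xc W (P + P) = DS (cA W) (cB W) (Xc W P) := by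
  rcases P with _ | ⟨x, y, h⟩
  · exact absurd rfl hP
  have hy : y ≠ W.negY x y := fun hy => h2 ((some_add_self_eq_zero_iff W h).2 hy)
  exact Xc_some_add_self W h hy

end Fermat.Agent.S51.FiveX
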