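import Mathlib
import Fermat.Agent.S51.Five.Poly

set_option autoImplicit false
set_option linter.unusedSectionVars false

/-!
The parametrisation of the `j`-invariant of a curve with a cyclic subgroup of order five.
-/

namespace Fermat.Agent.S51.FiveX

variable {K : Type*} [Field K] [CharZero K]

/-- From the two duplication relations `D u = v`, `D v = u` with `u ≠ v` one gets
`B` and a quadratic relation for `A` in terms of `u + v` and `u * v`. -/
theorem relations_of_cycle (A B u v : K) (huv : u ≠ v) (hGu : GS A B u ≠ 0) (hGv : GS A B v ≠ 0)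
    (h1 : DS A B u = v) (h2 : DS A B v = u) :
    4 * B = (u + v) * ((u + v) ^ 2 - 6 * (u * v) - 2 * A) ∧
      A ^ 2 + 2 * A * ((u + v) ^ 2 - u * v) - (u + v) ^ 4 + 5 * (u + v) ^ 2 * (u * v)
        + 5 * (u * v) ^ 2 = 0 := by
  have e1 : FS A B u = v * GS A B u := by
    unfold DS at h1
    rw [div_eq_iff hGu] at h1
    exact h1
  have e2 : FS A B v = u * GS A B v := by
    unfold DS at h2
    rw [div_eq_iff hGv] at h2
    exact h2
  unfold FS GS at e1 e2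
  have huv' : u - v ≠ 0 := sub_ne_zero.2 huv
  have hB : 4 * B = (u + v) * ((u + v) ^ 2 - 6 * (u * v) - 2 * A) := by
    have : (u - v) * (4 * B - (u + v) * ((u + v) ^ 2 - 6 * (u * v) - 2 * A)) = 0 := by
      linear_combination e2 - e1
    rcases mul_eq_zero.1 this with h | h
    · exact absurd h huv'
    · exact sub_eq_zero.1 h
  refine ⟨hB, ?_⟩
  linear_combination e1 + (v + 2 * u) * hB

theorem param_key (A B p q : K)
    (hB : 4 * B = p * (p ^ 2 - 6 * q - 2 * A))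
    (hR : A ^ 2 + 2 * A * (p ^ 2 - q) - p ^ 4 + 5 * p ^ 2 * q + 5 * q ^ 2 = 0) :
    (-48 * A) ^ 3 * (4 * A - 7 * p ^ 2 + 40 * q) * (p ^ 2 - 4 * q) ^ 5 =
      (-16 * (4 * A ^ 3 + 27 * B ^ 2)) *
        ((4 * A - 7 * p ^ 2 + 40 * q) ^ 2 + 10 * (4 * A - 7 * p ^ 2 + 40 * q) * (p ^ 2 - 4 * q)
          + 5 * (p ^ 2 - 4 * q) ^ 2) ^ 3 := by
  have hB' : B = p * (p ^ 2 - 6 * q - 2 * A) / 4 := by linear_combination hB / 4
  subst hB'
  linear_combination (-(-262144 * A^7 + 868352 * A^6 * p^2 - 8388608 * A^6 * q - 229376 * A^5 * p^4 + 15695872 * A^5 * p^2 * q - 98041856 * A^5 * q^2 - 1421312 * A^4 * p^6 + 13615104 * A^4 * p^4 * q + 49987584 * A^4 * p^2 * q^2 - 494927872 * A^4 * q^3 + 733184 * A^3 * p^8 - 25690112 * A^3 * p^6 * q + 217251840 * A^3 * p^4 * q^2 - 382926848 * A^3 * p^2 * q^3 - 912523264 * A^3 * q^4 + 552960 * A^2 * p^10 - 5750784 * A^2 * p^8 * q - 45342720 * A^2 * p^6 * q^2 + 680361984 * A^2 * p^4 * q^3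 - 1924743168 * A^2 * p^2 * q^4 - 110592 * A * p^12 + 5861376 * A * p^10 * q - 77303808 * A * p^8 * q^2 + 370704384 * A * p^6 * q^3 - 446791680 * A * p^4 * q^4 - 703365120 * A * p^2 * q^5 - 110592 * p^14 + 2433024 * p^12 * q - 18911232 * p^10 * q^2 + 54190080 * p^8 * q^3 + 3870720 * p^6 * q^4 - 165888000 * p^4 * q^5 - 99532800 * p^2 * q^6)) * hR

/-- the final shape of the identity, with `s = (3 p^2 + 4 A) / (p^2 - 4 q) - 10`. -/
theorem param_final (A B p q : K) (hd : p ^ 2 - 4 * q ≠ 0)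
    (hB : 4 * B = p * (p ^ 2 - 6 * q - 2 * A))
    (hR : A ^ 2 + 2 * A * (p ^ 2 - q) - p ^ 4 + 5 * p ^ 2 * q + 5 * q ^ 2 = 0) :
    (-48 * A) ^ 3 * ((3 * p ^ 2 + 4 * A) / (p ^ 2 - 4 * q) - 10) =
      (-16 * (4 * A ^ 3 + 27 * B ^ 2)) *
        (((3 * p ^ 2 + 4 * A) / (p ^ 2 - 4 * q) - 10) ^ 2
          + 10 * ((3 * p ^ 2 + 4 * A) / (p ^ 2 - 4 * q) - 10) + 5) ^ 3 := by
  have key := param_key A B p q hB hR
  have hs : (3 * p ^ 2 + 4 * A) / (p ^ 2 - 4 * q) - 10 =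
      (4 * A - 7 * p ^ 2 + 40 * q) / (p ^ 2 - 4 * q) := by
    field_simp
    ring
  rw [hs]
  generalize p ^ 2 - 4 * q = d at hd key ⊢
  generalize 4 * A - 7 * p ^ 2 + 40 * q = n at key ⊢
  have h2 : (n / d) ^ 2 + 10 * (n / d) + 5 = (n ^ 2 + 10 * n * d + 5 * d ^ 2) / d ^ 2 := by
    field_simp
  rw [h2, div_pow, mul_div_assoc', mul_div_assoc',
    div_eq_div_iff hd (pow_ne_zero _ (pow_ne_zero _ hd))]
  linear_combination d * key

end Fermat.Agent.S51.FiveX
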