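import Mathlib
import Fermat.Agent.S51.Five.Poly

set_option autoImplicit false
set_option linter.unusedSectionVars false

/-!
Polynomial objects for the quartic `psi3` and the degree 12 polynomial `psi5`.
-/

namespace Fermat.Agent.S51.FiveX

open Polynomial

variable {K : Type*} [Field K] [CharZero K]

noncomputable def psi3Poly (A B : K) : K[X] :=
  C 3 * X ^ 4 + C (6 * A) * X ^ 2 + C (12 * B) * X - C (A ^ 2)

noncomputable def psi5Poly (A B : K) : K[X] :=
  C 5 * X ^ 12 + C (62 * A) * X ^ 10 + C (380 * B) * X ^ 9 - C (105 * A ^ 2) * X ^ 8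
    + C (240 * A * B) * X ^ 7
    - C (300 * A ^ 3) * X ^ 6 - C (240 * B ^ 2) * X ^ 6 - C (696 * A ^ 2 * B) * X ^ 5
    - C (125 * A ^ 4) * X ^ 4
    - C (1920 * A * B ^ 2) * X ^ 4 - C (80 * A ^ 3 * B) * X ^ 3 - C (1600 * B ^ 3) * X ^ 3
    - C (50 * A ^ 5) * X ^ 2 - C (240 * A ^ 2 * B ^ 2) * X ^ 2 - C (100 * A ^ 4 * B) * X
    - C (640 * A * B ^ 3) * X + C (A ^ 6 - 32 * A ^ 3 * B ^ 2 - 256 * B ^ 4)

theorem eval_psi3Poly (A B x : K) : (psi3Poly A B).eval x = psi3 A B x := by
  simp only [psi3Poly, psi3, eval_add, eval_sub, eval_mul, eval_pow, eval_C, eval_X]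

theorem eval_psi5Poly (A B x : K) : (psi5Poly A B).eval x = psi5 A B x := by
  rw [psi5_expand]
  simp only [psi5Poly, eval_add, eval_sub, eval_mul, eval_pow, eval_C, eval_X]
  ring

theorem natDegree_psi3Poly (A B : K) : (psi3Poly A B).natDegree = 4 := by
  unfold psi3Poly
  compute_degree!

theorem natDegree_psi5Poly (A B : K) : (psi5Poly A B).natDegree = 12 := by
  unfold psi5Poly
  compute_degree!

theorem psi3Poly_ne_zero (A B : K) : psi3Poly A B ≠ 0 := by
  intro h
  have := natDegree_psi3Poly A B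
  rw [h, natDegree_zero] at this
  exact absurd this (by norm_num)

theorem psi5Poly_ne_zero (A B : K) : psi5Poly A B ≠ 0 := by
  intro h
  have := natDegree_psi5Poly A B
  rw [h, natDegree_zero] at this
  exact absurd this (by norm_num)

/-- the degree 16 polynomial whose roots contain the shifted x-coordinates of 5-torsion points -/
noncomputable def N16Poly (A B : K) : K[X] := psi3Poly A B * psi5Poly A B

theorem N16Poly_ne_zero (A B : K) : N16Poly A B ≠ 0 :=
  mul_ne_zero (psi3Poly_ne_zero A B) (psi5Poly_ne_zero A B)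

theorem natDegree_N16Poly (A B : K) : (N16Poly A B).natDegree = 16 := by
  unfold N16Poly
  rw [natDegree_mul (psi3Poly_ne_zero A B) (psi5Poly_ne_zero A B), natDegree_psi3Poly,
    natDegree_psi5Poly]

theorem isRoot_N16Poly_of_N16 (A B x : K) (h : N16 A B x = 0) : (N16Poly A B).IsRoot x := by
  rw [IsRoot.def, N16Poly, eval_mul, eval_psi3Poly, eval_psi5Poly]
  rw [N16_eq] at h
  exact neg_eq_zero.1 h

theorem card_roots_N16Poly [DecidableEq K] (A B : K) : (N16Poly A B).roots.toFinset.card ≤ 16 := by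
  calc (N16Poly A B).roots.toFinset.card ≤ Multiset.card (N16Poly A B).roots :=
        Multiset.toFinset_card_le _
    _ ≤ (N16Poly A B).natDegree := card_roots' _
    _ = 16 := natDegree_N16Poly A B

theorem exists_root_psi5 [IsAlgClosed K] (A B : K) : ∃ x : K, psi5 A B x = 0 := by
  have hd : (psi5Poly A B).degree ≠ 0 := by
    rw [degree_eq_natDegree (psi5Poly_ne_zero A B), natDegree_psi5Poly]
    norm_num
  obtain ⟨x, hx⟩ := IsAlgClosed.exists_root (psi5Poly A B) hd
  exact ⟨x, by rw [← eval_psi5Poly]; exact hx⟩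

end Fermat.Agent.S51.FiveX
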