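import Mathlib
import Fermat.Agent.S51.Five.Dup
import Fermat.Agent.S51.Five.PolyObj

set_option autoImplicit false
set_option linter.unusedSectionVars false

/-!
Facts about points of order five on a Weierstrass curve over a field of characteristic zero.
-/

namespace Fermat.Agent.S51.FiveX

open WeierstrassCurve WeierstrassCurve.Affine

variable {K : Type*} [Field K] [DecidableEq K] [CharZero K] (W : WeierstrassCurve.Affine K)

section group

variable {W}

theorem two_ne_zero_of_five {P : W.Point} (hP : P ≠ 0) (h5 : 5 • P = 0) : P + P ≠ 0 := by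
  intro h
  apply hP
  have e : P = 5 • P - 2 • (P + P) := by abel
  rw [e, h5, h]; simp

theorem four_ne_zero_of_five {P : W.Point} (hP : P ≠ 0) (h5 : 5 • P = 0) :
    (P + P) + (P + P) ≠ 0 := by
  intro h
  apply hP
  have e : P = 5 • P - ((P + P) + (P + P)) := by abel
  rw [e, h5, h]; simp

theorem four_eq_neg_of_five {P : W.Point} (h5 : 5 • P = 0) : (P + P) + (P + P) = -P := by
  have e : (P + P) + (P + P) = 5 • P - P := by abel
  rw [e, h5]; simp

theorem two_ne_self_of_five {P : W.Point} (hP : P ≠ 0) (_h5 : 5 • P = 0) : P + P ≠ P := by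
  intro h
  apply hP
  have e : P = (P + P) - P := by abel
  rw [e, h]; simp

theorem two_ne_neg_of_five {P : W.Point} (hP : P ≠ 0) (h5 : 5 • P = 0) : P + P ≠ -P := by
  intro h
  apply hP
  have e : P = 2 • (P + P + P) - 5 • P := by abel
  have h3 : P + P + P = 0 := by rw [h]; simp
  rw [e, h5, h3]; simp

end group

/-- the key algebraic facts satisfied by the shifted x-coordinate of a point of order five -/
theorem five_torsion_Xc {P : W.Point} (hP : P ≠ 0) (h5 : 5 • P = 0) :
    GS (cA W) (cB W) (Xc W P) ≠ 0 ∧ H12 (cA W) (cB W) (Xc W P) ≠ 0 ∧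
      Xc W (P + P) = DS (cA W) (cB W) (Xc W P) ∧
      DS (cA W) (cB W) (DS (cA W) (cB W) (Xc W P)) = Xc W P ∧
      DS (cA W) (cB W) (Xc W P) ≠ Xc W P ∧
      N16 (cA W) (cB W) (Xc W P) = 0 := by
  have h2 := two_ne_zero_of_five hP h5
  have h4 := four_ne_zero_of_five hP h5
  have hG : GS (cA W) (cB W) (Xc W P) ≠ 0 := fun h => h2 ((GS_Xc_eq_zero_iff W hP).1 h)
  have hX2 : Xc W (P + P) = DS (cA W) (cB W) (Xc W P) := Xc_add_self W hP h2
  have hG2 : GS (cA W) (cB W) (Xc W (P + P)) ≠ 0 := fun h => h4 ((GS_Xc_eq_zero_iff W h2).1 h)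
  have hX4 : Xc W ((P + P) + (P + P)) = DS (cA W) (cB W) (Xc W (P + P)) :=
    Xc_add_self W h2 h4
  rw [four_eq_neg_of_five h5, Xc_neg, hX2] at hX4
  rw [hX2] at hG2
  have hH : H12 (cA W) (cB W) (Xc W P) ≠ 0 := (GS_DS_ne_zero_iff _ _ _ hG).1 hG2
  refine ⟨hG, hH, hX2, hX4.symm, ?_, (DS_DS_eq_iff _ _ _ hG hH).1 hX4.symm⟩
  intro h
  rw [← hX2] at h
  rcases eq_or_eq_neg_of_Xc_eq W h2 hP h with h' | h'
  · exact two_ne_self_of_five hP h5 h'
  · exact two_ne_neg_of_five hP h5 h'

open Classical in
/-- a chosen nonzero point with a given shifted x-coordinate, if there is one -/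
noncomputable def ptOf (r : K) : W.Point :=
  if h : ∃ P : W.Point, P ≠ 0 ∧ Xc W P = r then h.choose else 0

theorem ptOf_spec {r : K} (h : ∃ P : W.Point, P ≠ 0 ∧ Xc W P = r) :
    ptOf W r ≠ 0 ∧ Xc W (ptOf W r) = r := by
  unfold ptOf
  rw [dif_pos h]
  exact h.choose_spec

/-- all points killed by five lie in an explicit finite set with at most 33 elements -/
theorem exists_finset_five_torsion :
    ∃ S : Finset W.Point, S.card ≤ 33 ∧ ∀ P : W.Point, 5 • P = 0 → P ∈ S := by
  classical
  set R := (N16Poly (cA W) (cB W)).roots.toFinset with hR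
  refine ⟨insert 0 (R.image (ptOf W) ∪ R.image (fun r => - ptOf W r)), ?_, ?_⟩
  · have hc : R.card ≤ 16 := card_roots_N16Poly _ _
    calc (insert 0 (R.image (ptOf W) ∪ R.image (fun r => - ptOf W r))).card
        ≤ (R.image (ptOf W) ∪ R.image (fun r => - ptOf W r)).card + 1 := Finset.card_insert_le _ _
      _ ≤ ((R.image (ptOf W)).card + (R.image (fun r => - ptOf W r)).card) + 1 :=
          Nat.add_le_add_right (Finset.card_union_le _ _) 1
      _ ≤ (R.card + R.card) + 1 :=
          Nat.add_le_add_right (Nat.add_le_add Finset.card_image_le Finset.card_image_le) 1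
      _ ≤ 33 := by omega
  · intro P h5
    by_cases hP : P = 0
    · rw [hP]; exact Finset.mem_insert_self _ _
    · obtain ⟨-, -, -, -, -, hN⟩ := five_torsion_Xc W hP h5
      have hroot : Xc W P ∈ R := by
        rw [hR, Multiset.mem_toFinset, Polynomial.mem_roots (N16Poly_ne_zero _ _)]
        exact isRoot_N16Poly_of_N16 _ _ _ hN
      obtain ⟨h0, hX⟩ := ptOf_spec W ⟨P, hP, rfl⟩
      apply Finset.mem_insert_of_mem
      rcases eq_or_eq_neg_of_Xc_eq W hP h0 hX.symm with h | h
      · exact Finset.mem_union_left _ (Finset.mem_image.2 ⟨Xc W P, hroot, h.symm⟩)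
      · exact Finset.mem_union_right _ (Finset.mem_image.2 ⟨Xc W P, hroot, h.symm⟩)

/-- over an algebraically closed field there is a point on the curve with a given `x` -/
theorem exists_point_of_x [IsAlgClosed K] (hΔ : W.Δ ≠ 0) (x : K) :
    ∃ y : K, W.Nonsingular x y := by
  obtain ⟨w, hw⟩ := IsAlgClosed.exists_pow_nat_eq
    (4 * x ^ 3 + W.b₂ * x ^ 2 + 2 * W.b₄ * x + W.b₆) (n := 2) (by norm_num)
  refine ⟨(w - W.a₁ * x - W.a₃) / 2, ?_⟩
  rw [← W.equation_iff_nonsingular_of_Δ_ne_zero hΔ, W.equation_iff]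
  simp only [WeierstrassCurve.b₂, WeierstrassCurve.b₄, WeierstrassCurve.b₆] at hw
  field_simp
  linear_combination hw

/-- existence of a point of exact order five over an algebraically closed field -/
theorem exists_five_torsion [IsAlgClosed K] (hΔ : W.Δ ≠ 0) :
    ∃ P : W.Point, P ≠ 0 ∧ 5 • P = 0 := by
  set A := cA W with hA
  set B := cB W with hB
  have hdisc : 4 * A ^ 3 + 27 * B ^ 2 ≠ 0 := by
    intro h
    apply hΔ
    rw [Δ_eq, ← hA, ← hB, h, mul_zero]
  obtain ⟨X0, hX0⟩ := exists_root_psi5 A B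
  -- the three non-vanishing statements
  have hG : GS A B X0 ≠ 0 := by
    intro hG0
    have h3 : psi3 A B X0 = 0 := by
      have : (psi3 A B X0) ^ 3 = 0 := by
        have := hX0
        unfold psi5 at this
        rw [hG0] at this
        linear_combination -this
      exact pow_eq_zero_iff (n := 3) (by norm_num) |>.1 this
    have h16 := psi3_of_GS_eq_zero A B X0 hG0
    rw [h3, mul_zero] at h16
    have hd : 12 * X0 ^ 2 + 4 * A = 0 := by
      have : (12 * X0 ^ 2 + 4 * A) ^ 2 = 0 := by linear_combination h16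
      exact pow_eq_zero_iff (n := 2) (by norm_num) |>.1 this
    apply hdisc
    apply disc_eq_zero_of_double_root A B X0
    · unfold GS at hG0
      have h4 : (4 : K) ≠ 0 := by norm_num
      exact (mul_eq_zero.1 hG0).resolve_left h4
    · linear_combination hd / 4
  have h3 : psi3 A B X0 ≠ 0 := by
    intro h3
    -- then D X0 = X0, so G (D X0) = G X0 ≠ 0, so H12 ≠ 0; but psi4p = 0
    have hD : DS A B X0 = X0 := by
      have := DS_sub A B X0 hG
      rw [h3, neg_zero, zero_div] at this
      exact sub_eq_zero.1 this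
    have hH : H12 A B X0 ≠ 0 := by
      rw [← GS_DS A B X0 hG, hD]
      exact mul_ne_zero hG (pow_ne_zero _ hG)
    apply hH
    rw [H12_eq]
    have : psi4p A B X0 * (GS A B X0) ^ 2 = 0 := by
      have := hX0
      unfold psi5 at this
      rw [h3] at this
      linear_combination this
    rcases mul_eq_zero.1 this with h | h
    · rw [h]; ring
    · exact absurd (pow_eq_zero_iff (n := 2) (by norm_num) |>.1 h) hG
  have hH : H12 A B X0 ≠ 0 := by
    intro hH
    rw [H12_eq] at hH
    have h4 : psi4p A B X0 = 0 := pow_eq_zero_iff (n := 2) (by norm_num) |>.1 hH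
    apply h3
    have : (psi3 A B X0) ^ 3 = 0 := by
      have := hX0
      unfold psi5 at this
      rw [h4] at this
      linear_combination -this
    exact pow_eq_zero_iff (n := 3) (by norm_num) |>.1 this
  have hN : N16 A B X0 = 0 := by rw [N16_eq, hX0]; ring
  have hDD : DS A B (DS A B X0) = X0 := (DS_DS_eq_iff A B X0 hG hH).2 hN
  have hD1 : DS A B X0 ≠ X0 := by
    intro h
    apply h3
    have := DS_sub A B X0 hG
    rw [h, sub_self] at this
    have h' : - psi3 A B X0 = 0 := by
      rcases div_eq_zero_iff.1 this.symm with h | h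
      · exact h
      · exact absurd h hG
    exact neg_eq_zero.1 h'
  -- the point
  obtain ⟨y0, hns⟩ := exists_point_of_x W hΔ (X0 - W.b₂ / 12)
  set P : W.Point := Point.some _ _ hns with hPdef
  have hP : P ≠ 0 := Point.some_ne_zero _
  have hXP : Xc W P = X0 := by rw [hPdef, Xc_some]; ring
  have h2 : P + P ≠ 0 := by
    intro h
    exact hG (by rw [← hXP]; exact (GS_Xc_eq_zero_iff W hP).2 h)
  have hX2 : Xc W (P + P) = DS A B X0 := by rw [Xc_add_self W hP h2, hXP]
  have h4 : (P + P) + (P + P) ≠ 0 := by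
    intro h
    have := (GS_Xc_eq_zero_iff W h2).2 h
    rw [hX2] at this
    exact (GS_DS_ne_zero_iff A B X0 hG).2 hH this
  have hX4 : Xc W ((P + P) + (P + P)) = Xc W P := by
    rw [Xc_add_self W h2 h4, hX2, hDD, hXP]
  refine ⟨P, hP, ?_⟩
  rcases eq_or_eq_neg_of_Xc_eq W h4 hP hX4 with h | h
  · -- 4P = P: then 2P = -P so D X0 = X0
    exfalso
    apply hD1
    have h2' : P + P = -P := by
      have e : P + P = ((P + P) + (P + P)) - P - P := by abel
      rw [e, h]; abel
    rw [← hX2, h2', Xc_neg, hXP]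
  · have e : 5 • P = ((P + P) + (P + P)) + P := by abel
    rw [e, h]; simp

end Fermat.Agent.S51.FiveX
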