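import Mathlib
import Fermat.Prelude.Def_FLTPrelim_ModularRep
import Fermat.Agent.S51.Five.Torsion
import Fermat.Agent.S51.Five.Param

set_option autoImplicit false
set_option linter.unusedSectionVars false
set_option linter.style.haveILetI false

/-!
Galois action on the shifted x-coordinates of points over the algebraic closure of the rationals.
-/

namespace Fermat.Agent.S51.FiveX
open WeierstrassCurve WeierstrassCurve.Affine WeierstrassCurve.Affine.Point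

local notation "Qbar" => AlgebraicClosure ℚ

theorem isGalois_Qbar : IsGalois ℚ Qbar :=
  haveI : Algebra.IsAlgebraic ℚ Qbar := AlgebraicClosure.isAlgebraic ℚ
  haveI : IsAlgClosure ℚ Qbar := ⟨inferInstance, inferInstance⟩
  IsAlgClosure.isGalois ℚ Qbar

theorem mem_range_of_fixed (z : Qbar) (h : ∀ σ : Qbar ≃ₐ[ℚ] Qbar, σ z = z) :
    ∃ r : ℚ, algebraMap ℚ Qbar r = z := by
  haveI := isGalois_Qbar
  exact (InfiniteGalois.mem_range_algebraMap_iff_fixed (k := ℚ) (K := Qbar) z).2 h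

variable (W' : WeierstrassCurve.Affine ℚ)

theorem smul_some (σ : Qbar ≃ₐ[ℚ] Qbar) {x y : Qbar} (h : (W'⁄Qbar).Nonsingular x y) :
    ∃ h', σ • (Point.some x y h : (W'⁄Qbar).Point) = Point.some (σ x) (σ y) h' :=
  ⟨_, rfl⟩

theorem smul_ne_zero (σ : Qbar ≃ₐ[ℚ] Qbar) {P : (W'⁄Qbar).Point} (hP : P ≠ 0) : σ • P ≠ 0 := by
  intro h
  apply hP
  have := congrArg (fun Q => σ⁻¹ • Q) h
  simp only [inv_smul_smul] at this
  rw [this]; rfl

theorem smul_add_pt (σ : Qbar ≃ₐ[ℚ] Qbar) (P Q : (W'⁄Qbar).Point) :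
    σ • (P + Q) = σ • P + σ • Q :=
  (Point.map σ.toAlgHom).map_add P Q

theorem Xc_smul (σ : Qbar ≃ₐ[ℚ] Qbar) {P : (W'⁄Qbar).Point} (hP : P ≠ 0) :
    Xc (W'⁄Qbar) (σ • P) = σ (Xc (W'⁄Qbar) P) := by
  rcases P with _ | ⟨x, y, h⟩
  · exact absurd rfl hP
  obtain ⟨h', e⟩ := smul_some W' σ h
  rw [e, Xc_some, Xc_some, map_add, map_div₀]
  have hb : σ ((W'⁄Qbar).b₂) = (W'⁄Qbar).b₂ := by
    change σ ((W'.map (algebraMap ℚ Qbar)).b₂) = (W'.map (algebraMap ℚ Qbar)).b₂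
    rw [WeierstrassCurve.map_b₂]
    exact σ.commutes _
  rw [hb, map_ofNat]

theorem cA_baseChange : cA (W'⁄Qbar) = algebraMap ℚ Qbar (cA W') := by
  unfold cA
  change - (W'.map (algebraMap ℚ Qbar)).c₄ / 48 = _
  rw [WeierstrassCurve.map_c₄]
  simp

theorem cB_baseChange : cB (W'⁄Qbar) = algebraMap ℚ Qbar (cB W') := by
  unfold cB
  change - (W'.map (algebraMap ℚ Qbar)).c₆ / 864 = _
  rw [WeierstrassCurve.map_c₆]
  simp

theorem Δ_baseChange : (W'⁄Qbar).Δ = algebraMap ℚ Qbar W'.Δ := by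
  change (W'.map (algebraMap ℚ Qbar)).Δ = _
  rw [WeierstrassCurve.map_Δ]

/-- The symmetric functions of `X(Q)` and `X(2Q)` are rational when the Galois orbit of a point
`Q` of order five stays inside the cyclic group it generates. -/
theorem symm_rational {Q : (W'⁄Qbar).Point} (hQ : Q ≠ 0) (h5 : 5 • Q = 0)
    (hstab : ∀ σ : Qbar ≃ₐ[ℚ] Qbar, ∃ k : ℕ, σ • Q = k • Q) :
    (∃ p : ℚ, algebraMap ℚ Qbar p = Xc (W'⁄Qbar) Q + Xc (W'⁄Qbar) (Q + Q)) ∧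
      (∃ q : ℚ, algebraMap ℚ Qbar q = Xc (W'⁄Qbar) Q * Xc (W'⁄Qbar) (Q + Q)) := by
  have h2 : Q + Q ≠ 0 := two_ne_zero_of_five hQ h5
  -- the values of Xc on multiples of Q
  have key : ∀ k : ℕ, k • Q ≠ 0 →
      (Xc (W'⁄Qbar) (k • Q) = Xc (W'⁄Qbar) Q ∧ Xc (W'⁄Qbar) (k • Q + k • Q) = Xc (W'⁄Qbar) (Q + Q)) ∨
      (Xc (W'⁄Qbar) (k • Q) = Xc (W'⁄Qbar) (Q + Q) ∧ Xc (W'⁄Qbar) (k • Q + k • Q) = Xc (W'⁄Qbar) Q) := by
    intro k hk
    have hmod : k • Q = (k % 5) • Q := by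
      conv_lhs => rw [← Nat.div_add_mod k 5]
      rw [add_smul, mul_comm, mul_smul, h5, nsmul_zero, zero_add]
    have hlt : k % 5 < 5 := Nat.mod_lt _ (by norm_num)
    rw [hmod] at hk ⊢
    interval_cases (k % 5)
    · exact absurd (zero_smul ℕ Q) hk
    · left
      rw [one_smul]
      exact ⟨rfl, rfl⟩
    · right
      refine ⟨by rw [two_smul], ?_⟩
      have e : (2 • Q + 2 • Q) = 5 • Q - Q := by abel
      rw [e, h5, zero_sub, Xc_neg]
    · right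
      have e : 3 • Q = 5 • Q - (Q + Q) := by abel
      have e' : (3 • Q + 3 • Q) = 5 • Q + Q := by abel
      refine ⟨by rw [e, h5, zero_sub, Xc_neg], by rw [e', h5, zero_add]⟩
    · left
      have e : 4 • Q = 5 • Q - Q := by abel
      have e' : (4 • Q + 4 • Q) = 5 • Q + 5 • Q - (Q + Q) := by abel
      refine ⟨by rw [e, h5, zero_sub, Xc_neg], by rw [e', h5, zero_add, zero_sub, Xc_neg]⟩
  have act : ∀ σ : Qbar ≃ₐ[ℚ] Qbar,
      (σ (Xc (W'⁄Qbar) Q) = Xc (W'⁄Qbar) Q ∧ σ (Xc (W'⁄Qbar) (Q + Q)) = Xc (W'⁄Qbar) (Q + Q)) ∨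
      (σ (Xc (W'⁄Qbar) Q) = Xc (W'⁄Qbar) (Q + Q) ∧ σ (Xc (W'⁄Qbar) (Q + Q)) = Xc (W'⁄Qbar) Q) := by
    intro σ
    obtain ⟨k, hk⟩ := hstab σ
    have hk0 : k • Q ≠ 0 := by rw [← hk]; exact smul_ne_zero W' σ hQ
    have e1 : σ (Xc (W'⁄Qbar) Q) = Xc (W'⁄Qbar) (k • Q) := by rw [← Xc_smul W' σ hQ, hk]
    have e2 : σ (Xc (W'⁄Qbar) (Q + Q)) = Xc (W'⁄Qbar) (k • Q + k • Q) := by
      rw [← Xc_smul W' σ h2, smul_add_pt, hk]
    rw [e1, e2]
    exact key k hk0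
  constructor
  · apply mem_range_of_fixed
    intro σ
    rw [map_add]
    rcases act σ with ⟨a, b⟩ | ⟨a, b⟩
    · rw [a, b]
    · rw [a, b, add_comm]
  · apply mem_range_of_fixed
    intro σ
    rw [map_mul]
    rcases act σ with ⟨a, b⟩ | ⟨a, b⟩
    · rw [a, b]
    · rw [a, b, mul_comm]

end Fermat.Agent.S51.FiveX
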