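import Mathlib
import Fermat.Prelude.Def_FLTPrelim_ModularRep
import Fermat.Agent.S51.Five.Galois

set_option autoImplicit false
set_option linter.unusedSectionVars false
set_option linter.style.haveILetI false

/-!
A reducible mod 5 representation yields a rational point on `X_0(5)`:
a rational `s` with `c₄^3 * s = Δ * (s^2 + 10 s + 5)^3`.
-/

namespace Fermat.Agent.S51.FiveX
open WeierstrassCurve WeierstrassCurve.Affine WeierstrassCurve.Affine.Point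

local notation "Qbar" => AlgebraicClosure ℚ

variable (W' : WeierstrassCurve.Affine ℚ)

local instance fact_prime_five_aux : Fact (Nat.Prime 5) := ⟨by norm_num⟩

theorem mem_torsionBy_five_iff (P : (W'⁄Qbar).Point) :
    P ∈ Submodule.torsionBy ℤ (W'⁄Qbar).Point ((5 : ℕ) : ℤ) ↔ 5 • P = 0 := by
  rw [Submodule.mem_torsionBy_iff, natCast_zsmul]

theorem nontrivial_torsionBy_five (hΔ : W'.Δ ≠ 0) :
    Nontrivial (Submodule.torsionBy ℤ (W'⁄Qbar).Point ((5 : ℕ) : ℤ)) := by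
  have hΔE : (W'⁄Qbar).Δ ≠ 0 := by
    rw [Δ_baseChange]
    exact (map_ne_zero_iff _ (algebraMap ℚ Qbar).injective).2 hΔ
  obtain ⟨P, hP, h5⟩ := exists_five_torsion (W'⁄Qbar) hΔE
  refine ⟨⟨⟨P, (mem_torsionBy_five_iff W' P).2 h5⟩, 0, ?_⟩⟩
  intro h
  exact hP (congrArg Subtype.val h)

theorem finite_torsionBy_five :
    Finite (Submodule.torsionBy ℤ (W'⁄Qbar).Point ((5 : ℕ) : ℤ)) ∧
      Nat.card (Submodule.torsionBy ℤ (W'⁄Qbar).Point ((5 : ℕ) : ℤ)) ≤ 33 := by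
  obtain ⟨S, hS, hmem⟩ := exists_finset_five_torsion (W'⁄Qbar)
  let f : (Submodule.torsionBy ℤ (W'⁄Qbar).Point ((5 : ℕ) : ℤ)) → S :=
    fun x => ⟨x.1, hmem x.1 ((mem_torsionBy_five_iff W' x.1).1 x.2)⟩
  have hf : Function.Injective f := by
    intro x y hxy
    apply Subtype.ext
    exact congrArg (fun z : S => (z : (W'⁄Qbar).Point)) hxy
  haveI : Finite (Submodule.torsionBy ℤ (W'⁄Qbar).Point ((5 : ℕ) : ℤ)) := Finite.of_injective f hf
  refine ⟨inferInstance, ?_⟩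
  calc Nat.card (Submodule.torsionBy ℤ (W'⁄Qbar).Point ((5 : ℕ) : ℤ)) ≤ Nat.card S :=
        Nat.card_le_card_of_injective f hf
    _ = S.card := by rw [Nat.card_eq_fintype_card, Fintype.card_coe]
    _ ≤ 33 := hS

theorem finrank_torsionBy_five_le :
    Module.finrank (ZMod 5) (Submodule.torsionBy ℤ (W'⁄Qbar).Point ((5 : ℕ) : ℤ)) ≤ 2 := by
  obtain ⟨hfin, hcard⟩ := finite_torsionBy_five W'
  haveI := hfin
  haveI : Module.Finite (ZMod 5) (Submodule.torsionBy ℤ (W'⁄Qbar).Point ((5 : ℕ) : ℤ)) :=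
    Module.Finite.of_finite
  have h := Module.natCard_eq_pow_finrank (K := ZMod 5)
    (V := Submodule.torsionBy ℤ (W'⁄Qbar).Point ((5 : ℕ) : ℤ))
  rw [Nat.card_zmod] at h
  by_contra hlt
  have hlt' : 3 ≤ Module.finrank (ZMod 5)
      (Submodule.torsionBy ℤ (W'⁄Qbar).Point ((5 : ℕ) : ℤ)) := by omega
  have h3 : 5 ^ 3 ≤ 5 ^ Module.finrank (ZMod 5)
      (Submodule.torsionBy ℤ (W'⁄Qbar).Point ((5 : ℕ) : ℤ)) :=
    Nat.pow_le_pow_right (by norm_num) hlt'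
  rw [← h] at h3
  exact absurd (le_trans h3 hcard) (by norm_num)

/-- the scalar action of `ZMod 5` on the torsion module is by natural multiples -/
theorem coe_zmod_smul (c : ZMod 5)
    (x : Submodule.torsionBy ℤ (W'⁄Qbar).Point ((5 : ℕ) : ℤ)) :
    ((c • x : Submodule.torsionBy ℤ (W'⁄Qbar).Point ((5 : ℕ) : ℤ)) : (W'⁄Qbar).Point) =
      c.val • (x : (W'⁄Qbar).Point) := by
  have h1 : c • x = c.val • x := by
    conv_lhs => rw [← ZMod.natCast_zmod_val c]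
    exact Nat.cast_smul_eq_nsmul (ZMod 5) c.val x
  rw [h1]
  exact AddSubmonoidClass.coe_nsmul x c.val

/-- From a Galois stable proper nonzero submodule we get a point of order five whose Galois
conjugates are multiples of it. -/
theorem exists_stable_point
    (N : Submodule (ZMod 5) (Submodule.torsionBy ℤ (W'⁄Qbar).Point ((5 : ℕ) : ℤ)))
    (hN : IsGaloisStable ℚ N) (hbot : N ≠ ⊥) (htop : N ≠ ⊤) :
    ∃ Q : (W'⁄Qbar).Point, Q ≠ 0 ∧ 5 • Q = 0 ∧
      ∀ σ : Qbar ≃ₐ[ℚ] Qbar, ∃ k : ℕ, σ • Q = k • Q := by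
  obtain ⟨hfin, -⟩ := finite_torsionBy_five W'
  haveI := hfin
  haveI : Module.Finite (ZMod 5) (Submodule.torsionBy ℤ (W'⁄Qbar).Point ((5 : ℕ) : ℤ)) :=
    Module.Finite.of_finite
  have h2 := finrank_torsionBy_five_le W'
  have hlt : Module.finrank (ZMod 5) N <
      Module.finrank (ZMod 5) (Submodule.torsionBy ℤ (W'⁄Qbar).Point ((5 : ℕ) : ℤ)) :=
    Submodule.finrank_lt htop
  have hpos : Module.finrank (ZMod 5) N ≠ 0 := by
    intro h0
    exact hbot (Submodule.finrank_eq_zero.1 h0)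
  have h1 : Module.finrank (ZMod 5) N = 1 := by omega
  obtain ⟨Q, hQN, hQ0⟩ := Submodule.exists_mem_ne_zero_of_ne_bot hbot
  have hQ0' : (⟨Q, hQN⟩ : N) ≠ 0 := fun h => hQ0 (congrArg Subtype.val h)
  have hspan := (finrank_eq_one_iff_of_nonzero' (⟨Q, hQN⟩ : N) hQ0').1 h1
  refine ⟨(Q : (W'⁄Qbar).Point), ?_, (mem_torsionBy_five_iff W' _).1 Q.2, ?_⟩
  · intro h
    exact hQ0 (Subtype.ext h)
  · intro σ
    obtain ⟨c, hc⟩ := hspan ⟨σ • Q, hN σ Q hQN⟩
    refine ⟨c.val, ?_⟩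
    have := congrArg (fun z : N => ((z : Submodule.torsionBy ℤ (W'⁄Qbar).Point ((5 : ℕ) : ℤ)) :
      (W'⁄Qbar).Point)) hc
    simp only [Submodule.coe_smul] at this
    rw [coe_zmod_smul] at this
    exact this.symm

/-- main theorem over `ℚ` -/
theorem exists_s_of_reducible (hΔ : W'.Δ ≠ 0)
    (h : ¬ GaloisRepIsIrreducible (K := Qbar) ℚ W' 5) :
    ∃ s : ℚ, s ≠ 0 ∧ W'.c₄ ^ 3 * s = W'.Δ * (s ^ 2 + 10 * s + 5) ^ 3 := by
  -- a stable line
  have hnt := nontrivial_torsionBy_five W' hΔ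
  have hex : ∃ N : Submodule (ZMod 5) (Submodule.torsionBy ℤ (W'⁄Qbar).Point ((5 : ℕ) : ℤ)),
      IsGaloisStable ℚ N ∧ N ≠ ⊥ ∧ N ≠ ⊤ := by
    by_contra hno
    apply h
    refine ⟨hnt, fun N hN => ?_⟩
    by_contra hcon
    apply hno
    exact ⟨N, hN, fun hb => hcon (Or.inl hb), fun ht => hcon (Or.inr ht)⟩
  obtain ⟨N, hN, hbot, htop⟩ := hex
  obtain ⟨Q, hQ, h5, hstab⟩ := exists_stable_point W' N hN hbot htop
  -- algebraic facts
  obtain ⟨hG, hH, hX2, hDD, hne, -⟩ := five_torsion_Xc (W'⁄Qbar) hQ h5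
  obtain ⟨⟨p, hp⟩, ⟨q, hq⟩⟩ := symm_rational W' hQ h5 hstab
  set u := Xc (W'⁄Qbar) Q with hu
  set v := Xc (W'⁄Qbar) (Q + Q) with hv
  have huv : u ≠ v := by rw [hX2]; exact fun e => hne e.symm
  have hGv : GS (cA (W'⁄Qbar)) (cB (W'⁄Qbar)) v ≠ 0 := by
    rw [hX2]; exact (GS_DS_ne_zero_iff _ _ _ hG).2 hH
  have h1 : DS (cA (W'⁄Qbar)) (cB (W'⁄Qbar)) u = v := hX2.symm
  have h2 : DS (cA (W'⁄Qbar)) (cB (W'⁄Qbar)) v = u := by rw [hX2]; exact hDD
  obtain ⟨hB, hR⟩ := relations_of_cycle _ _ u v huv hG hGv h1 h2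
  rw [← hp, ← hq, cA_baseChange, cB_baseChange] at hB
  rw [← hp, ← hq, cA_baseChange] at hR
  have hinj := (algebraMap ℚ Qbar).injective
  have hB0 : 4 * cB W' = p * (p ^ 2 - 6 * q - 2 * cA W') := by
    apply hinj
    simp only [map_mul, map_sub, map_pow, map_ofNat]
    exact hB
  have hR0 : (cA W') ^ 2 + 2 * cA W' * (p ^ 2 - q) - p ^ 4 + 5 * p ^ 2 * q + 5 * q ^ 2 = 0 := by
    apply hinj
    simp only [map_mul, map_sub, map_add, map_pow, map_ofNat, _root_.map_zero]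
    exact hR
  have hd : p ^ 2 - 4 * q ≠ 0 := by
    intro hd
    have : algebraMap ℚ Qbar (p ^ 2 - 4 * q) = 0 := by rw [hd, _root_.map_zero]
    simp only [map_mul, map_sub, map_pow, map_ofNat] at this
    rw [hp, hq] at this
    have h' : (u - v) ^ 2 = 0 := by linear_combination this
    exact huv (sub_eq_zero.1 (pow_eq_zero_iff (n := 2) (by norm_num) |>.1 h'))
  have hfin := param_final (cA W') (cB W') p q hd hB0 hR0
  have hc4 : -48 * cA W' = W'.c₄ := by unfold cA; ring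
  have hΔ' : -16 * (4 * (cA W') ^ 3 + 27 * (cB W') ^ 2) = W'.Δ := (Δ_eq W').symm
  rw [hc4, hΔ'] at hfin
  refine ⟨(3 * p ^ 2 + 4 * cA W') / (p ^ 2 - 4 * q) - 10, ?_, hfin⟩
  intro hs
  rw [hs] at hfin
  have : W'.Δ * 125 = 0 := by linear_combination -hfin
  rcases mul_eq_zero.1 this with h' | h'
  · exact hΔ h'
  · norm_num at h'

/-- main theorem for an integral model -/
theorem exists_s_of_reducible_five (W : WeierstrassCurve ℤ) (hΔ : W.Δ ≠ 0)
    (h : ¬ W.ModRepIsIrreducible 5) :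
    ∃ s : ℚ, s ≠ 0 ∧ (W.c₄ : ℚ) ^ 3 * s = (W.Δ : ℚ) * (s ^ 2 + 10 * s + 5) ^ 3 := by
  have hΔ' : (W.map (Int.castRingHom ℚ)).Δ ≠ 0 := by
    rw [WeierstrassCurve.map_Δ]
    simpa using hΔ
  obtain ⟨s, hs, e⟩ := exists_s_of_reducible (W.map (Int.castRingHom ℚ)) hΔ' h
  refine ⟨s, hs, ?_⟩
  rw [WeierstrassCurve.map_Δ, WeierstrassCurve.map_c₄] at e
  simpa using e

end Fermat.Agent.S51.FiveX
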